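import Fermat.Agent.RT.Assembly.Tangent
import Fermat.Prelude.Def_GaloisRep_StrictOrdinary
import Fermat.Prelude.Def_GaloisRep_Flat

/-!
# Patterns of local conditions on a lift

A pattern prescribes a condition on a lift `ru` at each prime of a finite set `S` and at `p`;
outside these and the auxiliary primes the lift is unramified, and its determinant is cyclotomic.
`weight` is what the pattern saves in the number of free variables of a presentation.
-/

set_option autoImplicit false

noncomputable section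

namespace Fermat.Agent.RT.Pattern

open IsLocalRing Fermat.Agent.Deform Fermat.Agent.CFT.Tangent

/-- The conditions at a prime other than `p`. `scalar`: no condition, the six coordinates of the
place are taken among the variables. `special ε`: the trace of Frobenius is `ε (q + 1)` and inertia
moves everything into its eigenline `ε q`. `both ε`: unramified, and the trace of Frobenius is
`ε (q + 1)`. -/
inductive Cond
  | unramified
  | unipotent
  | special (ε : ℤ)
  | both (ε : ℤ)
  | scalar
  deriving DecidableEq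

/-- The conditions at `p`. -/
inductive CondAtP
  | flat
  | strict
  | both
  deriving DecidableEq

/-- The variables saved at a prime. -/
def Cond.weight : Cond → ℕ
  | .scalar => 3
  | .both _ => 1
  | _ => 0

/-- The variables saved at `p`. -/
def CondAtP.weight : CondAtP → ℕ
  | .both => 1
  | _ => 0

/-- A pattern of local conditions. -/
structure Pat where
  /-- The primes other than `p` with a condition. -/
  S : Finset ℕ
  /-- The condition at each of them. -/
  cond : ℕ → Cond
  /-- The condition at `p`. -/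
  atP : CondAtP

/-- The variables saved by a pattern. -/
def Pat.weight (P : Pat) : ℕ := ∑ q ∈ P.S, (P.cond q).weight + P.atP.weight

variable {k : Type} [Field k]

/-- A condition at `q` is possible for the residual representation `r`. -/
def Cond.Compat (r : Gal →* M2 k) (q : ℕ) [Fact q.Prime] : Cond → Prop
  | .unramified => ∀ τ ∈ (padicPlace q).inertiaSubgroupIn ℚ, r τ = 1
  | .unipotent => ∃ τ ∈ (padicPlace q).inertiaSubgroupIn ℚ, r τ ≠ 1
  | .special ε => ε * ε = 1 ∧ (∀ τ ∈ (padicPlace q).inertiaSubgroupIn ℚ, r τ = 1) ∧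
      ∃ F, (padicPlace q).IsFrobeniusAt F q ∧ ∀ c : k, r F ≠ c • 1
  | .both ε => ε * ε = 1 ∧ (∀ τ ∈ (padicPlace q).inertiaSubgroupIn ℚ, r τ = 1) ∧
      ∃ F, (padicPlace q).IsFrobeniusAt F q ∧ ∀ c : k, r F ≠ c • 1
  | .scalar => (∀ τ ∈ (padicPlace q).inertiaSubgroupIn ℚ, r τ = 1) ∧
      ∃ F, (padicPlace q).IsFrobeniusAt F q ∧ ∃ c : k, r F = c • 1

/-- A pattern is possible for the residual representation `r`. -/
structure Pat.Compat (P : Pat) (p : ℕ) (r : Gal →* M2 k) : Prop where
  prime : ∀ q ∈ P.S, q.Prime ∧ q ≠ p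
  cond : ∀ (q : ℕ) [Fact q.Prime], q ∈ P.S → (P.cond q).Compat r q
  outside : ∀ (q : ℕ) [Fact q.Prime], q ∉ P.S → q ≠ p →
    ∀ τ ∈ (padicPlace q).inertiaSubgroupIn ℚ, r τ = 1

variable {R : Type} [CommRing R] [IsLocalRing R]

/-- A condition at `q` on a lift. -/
def Cond.Holds (ru : Gal →* M2 R) (q : ℕ) [Fact q.Prime] : Cond → Prop
  | .unramified => ∀ τ ∈ (padicPlace q).inertiaSubgroupIn ℚ, ru τ = 1
  | .unipotent => ∀ τ ∈ (padicPlace q).inertiaSubgroupIn ℚ, (ru τ).trace = 2
  | .special ε => ∀ F, (padicPlace q).IsFrobeniusAt F q →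
      (ru F).trace = (ε : R) * ((q : R) + 1) ∧
        ∀ τ ∈ (padicPlace q).inertiaSubgroupIn ℚ, (ru F - ((ε : R) * (q : R)) • 1) * (ru τ - 1) = 0
  | .both ε => (∀ τ ∈ (padicPlace q).inertiaSubgroupIn ℚ, ru τ = 1) ∧
      ∀ F, (padicPlace q).IsFrobeniusAt F q → (ru F).trace = (ε : R) * ((q : R) + 1)
  | .scalar => True

/-- A condition at `p` on a lift. -/
def CondAtP.Holds (ρ : GaloisRepAdic R) (p : ℕ) : CondAtP → Prop
  | .flat => ρ.IsFlatAt p
  | .strict => ρ.IsStrictOrdinaryAt p
  | .both => ρ.IsFlatAt p ∧ ρ.IsStrictOrdinaryAt p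

/-- A lift has the pattern, with auxiliary primes `Q`. -/
structure Pat.Holds (P : Pat) (p : ℕ) (Q : Set ℕ) (ru : Gal →* M2 R) (hc : IsCont ru) : Prop where
  det : (toRep ru hc).DetIsCyclotomic p
  cond : ∀ (q : ℕ) [Fact q.Prime], q ∈ P.S → (P.cond q).Holds ru q
  atP : P.atP.Holds (toRep ru hc) p
  outside : ∀ (q : ℕ) [Fact q.Prime], q ∉ P.S → q ≠ p → q ∉ Q →
    ∀ τ ∈ (padicPlace q).inertiaSubgroupIn ℚ, ru τ = 1

variable {O : Type} [CommRing O] [IsLocalRing O] [Algebra O R] (W : Rigid O) {h : IsResAlg O R}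

/-- The tangent classes killing `x` vanish on the decomposition groups of the scalar places. -/
def Pat.KillsScalar {C : Type} (P : Pat) (h : IsResAlg O R) (ru : Gal →* M2 R) (x : C → R) : Prop :=
  ∀ δ ∈ Assembly.killedDer h x, ∀ (q : ℕ) [Fact q.Prime], q ∈ P.S → P.cond q = .scalar →
    ∀ g ∈ (padicPlace q).decompositionSubgroup ℚ, tangentCls W h ru δ g = 0

/-- Taylor–Wiles primes for all patterns inside `S` at once: the tangent space of a pattern, cut
out by the coordinates `x` at its scalar places, has dimension at most `r` minus the weight. -/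
def HasPatternBound (p : ℕ) : Prop :=
  ∀ S : Finset ℕ, (∀ q ∈ S, q.Prime) → p ∈ S →
    (∀ (q : ℕ) [Fact q.Prime], q ∉ S → ∀ τ ∈ (padicPlace q).inertiaSubgroupIn ℚ, W.rb τ = 1) →
    ∃ r₀ : ℕ, ∀ r : ℕ, r₀ ≤ r → ∀ n : ℕ, ∃ qv : Fin r → ℕ, Function.Injective qv ∧
      (∀ i, (qv i).Prime ∧ qv i ∉ S ∧ p ^ (n + 1) ∣ qv i - 1) ∧
      (∀ i, ∀ A : ValuationSubring (AlgebraicClosure ℚ), A.LiesOverPrime (qv i) → ∀ φ : Gal,
        A.IsFrobeniusAt φ (qv i) → (W.rb φ).det = 1 ∧ (W.rb φ).trace ^ 2 ≠ 4 ∧
          ∃ α β : ResidueField O, α ≠ β ∧ (W.rb φ).charpoly =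
            (Polynomial.X - Polynomial.C α) * (Polynomial.X - Polynomial.C β)) ∧
      ∀ (P : Pat), P.S ⊆ S → P.Compat p W.rb →
        ∀ (R : Type) [CommRing R] [IsLocalRing R] [IsNoetherianRing R] [Algebra O R]
          (h : IsResAlg O R) (ru : Gal →* M2 R) (hc : IsCont ru), Lifts W h ru → IsNormal W ru →
          Algebra.adjoin O (entries ru) = ⊤ → P.Holds p (Set.range qv) ru hc →
          ∀ (C : Type) (x : C → R), P.KillsScalar W h ru x →
            Module.finrank (ResidueField O) (Assembly.killedDer h x) + P.weight ≤ r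

end Fermat.Agent.RT.Pattern
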