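import Fermat.Agent.RT.Pattern.Defs
import Fermat.Agent.RT.Assembly.Level

/-!
# The place coordinates cut out the classes at the scalar places

At a scalar place a derivation killing the coordinates of an inertia element and of a Frobenius
kills both matrices, so its class vanishes on the decomposition group.
-/

set_option autoImplicit false

noncomputable section

namespace Fermat.Agent.RT.Pattern

open IsLocalRing Fermat.Agent.Deform Fermat.Agent.CFT.Tangent Fermat.Agent.Arith Module

variable {O : Type} [CommRing O] [IsLocalRing O]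
variable {R : Type} [CommRing R] [IsLocalRing R] [Algebra O R] {W : Rigid O} {h : IsResAlg O R}
  {ru : Gal →* M2 R}

/-- A residual representation scalar at one Frobenius and trivial on inertia is scalar on the
decomposition group. -/
theorem exists_scalar {k : Type} [Field k] {r : Gal →* M2 k} {q : ℕ} [Fact q.Prime]
    (hr : GaloisFactorsThroughFiniteLevel r)
    (hr1 : ∀ τ ∈ (padicPlace q).inertiaSubgroupIn ℚ, r τ = 1) {F : Gal}
    (hF : (padicPlace q).IsFrobeniusAt F q) {c : k} (hc : r F = c • 1) {g : Gal}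
    (hg : g ∈ (padicPlace q).decompositionSubgroup ℚ) : ∃ e : k, e ≠ 0 ∧ r g = e • 1 := by
  obtain ⟨L, hLf, hLn, hL⟩ := exists_common_level hr ⊥
    fun b hb => ⟨⊥, inferInstance, fun σ _ => by rw [(Submodule.mem_bot k).mp hb]; rfl⟩
  obtain ⟨i, τ, hτ, he⟩ := exists_frobenius_mul_inertia L hF hg
  have hg' : r g = c ^ i • 1 := by
    rw [map_eq_of_agree (fun σ h => (hL σ h).1) he, map_mul, hr1 τ hτ, mul_one, map_pow, hc,
      smul_pow, one_pow]
  refine ⟨c ^ i, fun h0 => ?_, hg'⟩
  have := det_map_ne_zero r g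
  rw [hg', h0, zero_smul, Matrix.det_zero] at this
  exact this rfl

/-- A derivation killing the traceless coordinates of a matrix over a scalar kills its class. -/
theorem tangentCls_eq_zero_of_tlCoord [Finite (ResidueField O)] (p : ℕ) [Fact p.Prime]
    [CharP (ResidueField O) p] (h2 : (2 : ResidueField O) ≠ 0) (hl : Lifts W h ru) (hc : IsCont ru)
    (hdet : (toRep ru hc).DetIsCyclotomic p) {c2 : R} (hc2 : 2 * c2 = 1) (δ : tangentDer h)
    {g : Gal} {e : ResidueField O} (he : e ≠ 0) (hg : W.rb g = e • 1)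
    (h0 : ∀ i, δ.1 (Assembly.tlCoord c2 (ru g) i) = 0) : tangentCls W h ru δ g = 0 := by
  have hX : ∀ i j, augment h (ru g i j) = if i = j then e else 0 := fun i j => by
    rw [hl, hg, Matrix.smul_apply, Matrix.one_apply, smul_eq_mul, mul_ite, mul_one, mul_zero]
  have htr : δ.1 (ru g).trace = 0 := by
    rw [← Assembly.trace_tangentCls_mul_rb (W := W), hg, mul_smul_comm, mul_one, Matrix.trace_smul,
      Assembly.trace_tangentCls p hl hc hdet, smul_zero]
  refine Assembly.tangentCls_eq_zero δ (Assembly.eq_zero_of_tlCoord h2 hc2 δ he hX h0 ?_)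
  have h01 : δ.1 (ru g 0 1) = 0 := h0 1
  have h10 : δ.1 (ru g 1 0) = 0 := h0 2
  have hsub : ∀ a b, δ.1 (a - b) = δ.1 a - δ.1 b := fun a b => by
    have := δ.2.1 (a - b) b
    rw [sub_add_cancel] at this
    rw [this, add_sub_cancel_right]
  rw [Matrix.trace_fin_two, δ.2.1] at htr
  rw [Matrix.det_fin_two, hsub, δ.2.2.1, δ.2.2.1, h01, h10, mul_zero, mul_zero, add_zero,
    sub_zero, hX 0 0, hX 1 1, if_pos rfl, if_pos rfl, ← mul_add, add_comm, htr, mul_zero]

/-- **The coordinates at the scalar places.** -/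
theorem killsScalar_placeCoord [Finite (ResidueField O)] (p : ℕ) [Fact p.Prime]
    [CharP (ResidueField O) p] (h2 : (2 : ResidueField O) ≠ 0)
    (hfin : GaloisFactorsThroughFiniteLevel W.rb) {P : Pat} {Q : Set ℕ} (hP : P.Compat p W.rb)
    (hl : Lifts W h ru) (hc : IsCont ru) (hH : P.Holds p Q ru hc) {V : Type} (vT : V → ℕ)
    (hcover : ∀ q ∈ P.S, P.cond q = .scalar → ∃ v, vT v = q) (σT φT : V → Gal)
    (hσT : ∀ (v : V) [Fact (vT v).Prime], σT v ∈ (padicPlace (vT v)).inertiaSubgroupIn ℚ ∧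
      ∃ (π : QBar) (m : ℤ), π ≠ 0 ∧
        Mazur.Eisenstein.ordAt (padicPlace (vT v)) (vT v) π = m / p ∧
        EC.Reduction.res (padicPlace (vT v)) (σT v π / π) ≠ 1 ∧
        EC.Reduction.res (padicPlace (vT v)) (σT v π / π) ^ p = 1)
    (hφT : ∀ (v : V) [Fact (vT v).Prime], (padicPlace (vT v)).IsFrobeniusAt (φT v) (vT v))
    {c2 : R} (hc2 : 2 * c2 = 1) :
    P.KillsScalar W h ru
      (Assembly.placeCoord c2 (fun v => ru (σT v)) fun v => ru (φT v)) := by
  intro δ hδ q _ hqS hq g hg
  obtain ⟨v, rfl⟩ := hcover q hqS hq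
  have hcompat := hP.cond (vT v) hqS
  rw [hq] at hcompat
  obtain ⟨hr1, F, hF, c, hc'⟩ := hcompat
  obtain ⟨hσ, π, m, hπ, hπord, hπσ, hπσp⟩ := hσT v
  have hφ := hφT v
  have hφD : φT v ∈ (padicPlace (vT v)).decompositionSubgroup ℚ :=
    mem_decomposition_iff.mpr (isFrobeniusAt_iff_forall_mem.mp hφ).1
  have hzero : ∀ s ∈ (padicPlace (vT v)).decompositionSubgroup ℚ,
      (∀ i, δ.1 (Assembly.tlCoord c2 (ru s) i) = 0) → tangentCls W h ru δ s = 0 := by
    intro s hs h0
    obtain ⟨e, he, hse⟩ := exists_scalar hfin hr1 hF hc' hs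
    exact tangentCls_eq_zero_of_tlCoord p h2 hl hc hH.det hc2 δ he hse h0
  refine Assembly.eq_zero_on_decomposition (p := p) hfin (tangentCls_mul hl δ)
    (tangentCls_finiteLevel hc δ) (hP.prime _ hqS).2 hr1 hσ hπ hπord hπσ hπσp ?_ hφ ?_ hg
  · exact hzero _ ((Subgroup.map_subtype_le _) hσ) fun i => by
      simpa [Assembly.placeCoord] using hδ (v, 0, i)
  · exact hzero _ hφD fun i => by simpa [Assembly.placeCoord] using hδ (v, 1, i)

end Fermat.Agent.RT.Pattern
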