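import Fermat.Agent.RT.Pattern.Bound

/-!
# Classes that are flat and strictly ordinary at `p`

In the frame of a strictly ordinary class every class is, up to a coboundary, a cocycle with values
in the cyclotomic character. Flatness leaves a two dimensional space of these, and the coboundaries
of the line and of the diagonal element fill it up to the fixed matrices.

Main results: `flatStrictBound` and `hasPatternBound`.
-/

set_option autoImplicit false

noncomputable section

namespace Fermat.Agent.RT.Pattern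

open Fermat.Agent.Deform Fermat.Agent.CFT.Tangent Fermat.Agent.Arith Fermat.Agent.CFT.Flat Module
open Fermat.Agent.CFT.TWPrimes (LocalBound)

variable {k : Type} [Field k]

/-! ## Frames and lines -/

/-- The functions with values in the line `k · E₁₂`. -/
def lineFun (k : Type) [Field k] : Submodule k (Gal → M2 k) where
  carrier := {c | ∀ g, c g 0 0 = 0 ∧ c g 1 0 = 0 ∧ c g 1 1 = 0}
  add_mem' {c c'} h h' g := by simp [h g, h' g]
  zero_mem' g := ⟨rfl, rfl, rfl⟩
  smul_mem' t c h g := by simp [h g]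

/-- The trace zero matrices `(b, a; 0, -b)` in another basis. -/
def planeMap (P Pi : M2 k) : (k × k) →ₗ[k] M2 k where
  toFun x := P * !![x.2, x.1; 0, -x.2] * Pi
  map_add' x y := by
    rw [← add_mul, ← mul_add]
    congr 2
    ext i j; fin_cases i <;> fin_cases j <;> simp [add_comm]
  map_smul' t x := by
    rw [RingHom.id_apply, ← smul_mul_assoc, ← mul_smul_comm]
    congr 2
    ext i j; fin_cases i <;> fin_cases j <;> simp

variable {p : ℕ} [hp : Fact p.Prime] [CharP k p] {r : Gal →* M2 k}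

omit [CharP k p] in
/-- Two strictly ordinary frames share their line. -/
theorem frame_mul_lower {τ : Gal} (hτ : τ ∈ (padicPlace p).inertiaSubgroupIn ℚ)
    (hdet : (r τ).det ≠ 1) {b b' : Gal → M2 k} (f : OrdFrame p r b) (f' : OrdFrame p r b') :
    (f.Zi * f'.Z) 1 0 = 0 := by
  obtain ⟨x, c, h, -⟩ := f.inertia τ hτ
  obtain ⟨x', c', h', hx'⟩ := f'.inertia τ hτ
  have e : !![x, c; 0, 1] * (f.Zi * f'.Z) = (f.Zi * f'.Z) * !![x', c'; 0, 1] := by
    calc !![x, c; 0, 1] * (f.Zi * f'.Z) = f.Zi * (f.Z * !![x, c; 0, 1]) * (f.Zi * f'.Z) := by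
          rw [← mul_assoc f.Zi f.Z, f.inv_mul, one_mul]
      _ = f.Zi * (r τ * (f.Z * f.Zi) * f'.Z) := by rw [← h]; simp only [mul_assoc]
      _ = (f.Zi * f'.Z) * !![x', c'; 0, 1] := by
        rw [f.mul_inv, mul_one, h', mul_assoc]
  have e10 := congrFun (congrFun e 1) 0
  rw [hx'] at e10
  simp [Matrix.mul_apply, Fin.sum_univ_two] at e10
  simp only [Matrix.mul_apply, Fin.sum_univ_two]
  refine (mul_eq_zero.mp (?_ : ((r τ).det - 1) * _ = 0)).resolve_left (sub_ne_zero.mpr hdet)
  linear_combination -e10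

variable [Finite k]

/-! ## Classes in the line -/

omit [CharP k p] [Finite k] in
/-- Coboundaries of upper triangular matrices lie in the line. -/
private theorem localise_cobd_planeMap_mem_line {P Pi : M2 k} (hP : P * Pi = 1) (hP' : Pi * P = 1)
    {r' : Gal →* M2 k} (hr' : r' = conjR r P Pi hP hP')
    (hup : ∀ g ∈ decG p, r' g 1 0 = 0 ∧ r' g 0 0 = (r g).det * r' g 1 1 ∧
      r' g 1 1 * r' g 1 1 = 1)
    (x : k × k) : localise p P Pi (cobdLin r (planeMap P Pi x)) ∈ lineFun k := fun g => by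
  set Φ := localise p P Pi with hΦdef
  by_cases hg : g ∈ decG p
  swap
  · rw [hΦdef, localise_notMem P Pi _ hg]
    exact ⟨rfl, rfl, rfl⟩
  have e : Φ (cobdLin r (planeMap P Pi x)) g =
      r' g * !![x.2, x.1; 0, -x.2] * r' g⁻¹ - !![x.2, x.1; 0, -x.2] := by
    rw [hΦdef, localise_mem P Pi _ hg, cobdLin_apply, mul_sub, sub_mul, hr']
    show _ = Pi * r g * P * !![x.2, x.1; 0, -x.2] * (Pi * r g⁻¹ * P) - _
    congr 1
    · simp only [planeMap, LinearMap.coe_mk, AddHom.coe_mk, mul_assoc]
    · simp only [planeMap, LinearMap.coe_mk, AddHom.coe_mk]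
      rw [← mul_assoc, ← mul_assoc, hP', one_mul, mul_assoc, hP', mul_one]
  have hi := CFT.Tangent.map_mul_inv r' g
  have hi10 := (hup g⁻¹ (inv_mem hg)).1
  have hi00 := congrFun (congrFun hi 0) 0
  have hi11 := congrFun (congrFun hi 1) 1
  simp [Matrix.mul_apply, Fin.sum_univ_two, (hup g hg).1, hi10] at hi00 hi11
  rw [e]
  refine ⟨?_, ?_, ?_⟩ <;> simp [Matrix.mul_apply, Fin.sum_univ_two, (hup g hg).1, hi10]
  · linear_combination x.2 * hi00
  · linear_combination -x.2 * hi11

omit [CharP k p] in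
/-- Classes in the line whose entry is a flat cocycle with values in the determinant span at most a
plane. -/
private theorem finrank_lineClasses_le_two [Algebra (ZMod p) k] [Algebra (ZMod p) (Res p)]
    (hfin : GaloisFactorsThroughFiniteLevel r) {r' : Gal →* M2 k}
    (hup : ∀ g ∈ decG p, r' g 1 0 = 0 ∧ r' g 0 0 = (r g).det * r' g 1 1 ∧
      r' g 1 1 * r' g 1 1 = 1)
    (ι : k →+* Res p) {τ : Gal} (hτ : τ ∈ inG p) (hτprim : IsPrimitiveRoot (theta p τ) (e₀ p))
    (hgen : ∀ g ∈ inG p, ∃ n : ℕ, (τ ^ n)⁻¹ * g ∈ tame p)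
    (ha₀ : ι (r τ).det = thetaBar p τ ^ (p + 1))
    (T : Submodule k (Gal → M2 k)) [Module.Finite k T] (hline : T ≤ lineFun k)
    (hcls : ∀ c ∈ T.toAddSubgroup, IsLocalClass p r' c) : finrank k T ≤ 2 := by
  have : Finite T := Module.finite_of_finite k
  obtain ⟨L₀, hL₀, hL₀'⟩ := hfin
  set L := IntermediateField.normalClosure ℚ L₀ QBar
  have : Normal ℚ L := normalClosure.normal ℚ L₀ QBar
  have hmul : ∀ g ∈ decG p, ∀ h ∈ decG p, (r (g * h)).det = (r g).det * (r h).det :=
    fun g _ h _ => by rw [map_mul, Matrix.det_mul]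
  -- the determinant is a tame character
  obtain ⟨htame, hexp⟩ := char_tame (χ := fun g => (r g).det) hmul (by simp) L fun g hg _ => by
    rw [hL₀' g fun x hx => (IntermediateField.mem_fixingSubgroup_iff _ _).mp hg x
      (L₀.le_normalClosure hx), Matrix.det_one]
  -- the upper right entry is a cocycle with values in it
  have hrel : ∀ c ∈ T.toAddSubgroup, ∀ g ∈ decG p, ∀ h ∈ decG p,
      c (g * h) 0 1 = c g 0 1 + (r g).det * c h 0 1 := by
    intro c hc g hg h hh
    have e : c (g * h) * r' g = r' g * c h + c g * r' g := by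
      rw [(hcls c hc).add g hg h hh, add_mul, mul_assoc, ← map_mul, inv_mul_cancel, map_one,
        mul_one]
    have e01 := congrFun (congrFun e 0) 1
    obtain ⟨h00, h10, h11⟩ := hline hc g
    obtain ⟨h00', h10', h11'⟩ := hline hc h
    obtain ⟨h00'', h10'', h11''⟩ := hline hc (g * h)
    obtain ⟨u10, u00, u11⟩ := hup g hg
    simp [Matrix.mul_apply, Fin.sum_univ_two, h00, h11', h00'', u00] at e01
    linear_combination r' g 1 1 * e01 - (c (g * h) 0 1 - c g 0 1 - (r g).det * c h 0 1) * u11
  -- such entries number at most `|k| ^ 2`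
  have h := natCard_entry_le (ι := ι) (χ := fun g => (r g).det) 0 1 hmul htame (hexp τ hτ)
    T.toAddSubgroup hcls hrel hτ hτprim hgen ha₀
  rw [if_pos rfl] at h
  -- and the entry determines the class
  have hinj : Function.Injective ((entryHom (k := k) 0 1).addSubgroupMap T.toAddSubgroup) := by
    intro c c' hcc
    refine Subtype.ext (funext fun g => ?_)
    have h01 : c.1 g 0 1 = c'.1 g 0 1 :=
      congrFun (congrArg (fun y : T.toAddSubgroup.map (entryHom 0 1) => (y : Gal → k)) hcc) g
    obtain ⟨a, b, d⟩ := hline c.2 g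
    obtain ⟨a', b', d'⟩ := hline c'.2 g
    ext i j
    fin_cases i <;> fin_cases j
    · exact a.trans a'.symm
    · exact h01
    · exact b.trans b'.symm
    · exact d.trans d'.symm
  have : Finite (T.toAddSubgroup.map (entryHom (k := k) 0 1)) :=
    Finite.of_surjective _
      (AddMonoidHom.addSubgroupMap_surjective (entryHom 0 1) T.toAddSubgroup)
  have h1 := (Nat.card_le_card_of_injective _ hinj).trans h
  rw [show Nat.card T.toAddSubgroup = Nat.card T from rfl,
    Module.natCard_eq_pow_finrank (K := k) (V := T), ← pow_two] at h1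
  exact (Nat.pow_le_pow_iff_right Finite.one_lt_card).mp h1

omit [Finite k] [CharP k p] in
/-- In the frame of `fr` a class with values in the line of another frame has values in the line. -/
private theorem entries_of_frame {τ : Gal} (hτ : τ ∈ (padicPlace p).inertiaSubgroupIn ℚ)
    (ha₁ : (r τ).det ≠ 1) {b b' : Gal → M2 k} (fr : OrdFrame p r b') (f : OrdFrame p r b)
    {g : Gal} (hg : g ∈ decG p) :
    (fr.Zi * (b g - cobdLin r f.X g) * fr.Z) 0 0 = 0 ∧
      (fr.Zi * (b g - cobdLin r f.X g) * fr.Z) 1 0 = 0 ∧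
      (fr.Zi * (b g - cobdLin r f.X g) * fr.Z) 1 1 = 0 := by
  set P := fr.Z
  set Pi := fr.Zi
  obtain ⟨c, hc⟩ := f.line g hg
  have h10 : (Pi * f.Z) 1 0 = 0 := frame_mul_lower hτ ha₁ fr f
  have h10' : (f.Zi * P) 1 0 = 0 := frame_mul_lower hτ ha₁ f fr
  rw [hc, mul_smul_comm, smul_mul_assoc,
    show Pi * (f.Z * Matrix.single 0 1 1 * f.Zi) * P =
      (Pi * f.Z) * Matrix.single 0 1 1 * (f.Zi * P) by simp only [mul_assoc]]
  generalize Pi * f.Z = A at h10 ⊢
  generalize f.Zi * P = B' at h10' ⊢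
  refine ⟨?_, ?_, ?_⟩ <;>
    simp [Matrix.mul_apply, Fin.sum_univ_two, Matrix.single, h10, h10']

omit [Finite k] in
/-- The plane of a frame has trace zero. -/
private theorem trace_planeMap {P Pi : M2 k} (hP' : Pi * P = 1) (x : k × k) :
    (planeMap P Pi x).trace = 0 := by
  show (P * !![x.2, x.1; 0, -x.2] * Pi).trace = 0
  rw [Matrix.trace_mul_comm, ← mul_assoc, hP', one_mul]
  simp [Matrix.trace_fin_two]

omit [CharP k p] [Finite k] in
/-- A function killed by localisation in an invertible frame vanishes on the decomposition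
group. -/
private theorem eq_zero_of_localise_eq_zero {P Pi : M2 k} (hP : P * Pi = 1) {c : Gal → M2 k}
    (h : localise p P Pi c = 0) {g : Gal} (hg : g ∈ decG p) : c g = 0 := by
  have e := congrArg (fun F => P * F g * Pi) h
  simp only [localise_mem P Pi c hg, _root_.Pi.zero_apply, mul_zero, zero_mul, ← mul_assoc, hP,
    one_mul] at e
  simpa [mul_assoc, hP] using e

omit [CharP k p] [Finite k] in
/-- The trace zero plane of a frame meets the kernel of the localised coboundary in fixed
matrices. -/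
private theorem finrank_ker_plane_le {P Pi : M2 k} (hP : P * Pi = 1) (hP' : Pi * P = 1) :
    finrank k (LinearMap.ker ((localise p P Pi).comp ((cobdLin r).comp (planeMap P Pi)))) ≤
      finrank k (fixedOn r ((padicPlace p).decompositionSubgroup ℚ)) := by
  set G := (localise p P Pi).comp ((cobdLin r).comp (planeMap P Pi))
  refine LinearMap.finrank_le_finrank_of_injective
    (f := LinearMap.codRestrict _ ((planeMap P Pi).comp (LinearMap.ker G).subtype) fun x => ?_) ?_
  · refine ⟨trace_planeMap hP' x.1, fun s hs => sub_eq_zero.mp ?_⟩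
    exact eq_zero_of_localise_eq_zero hP (LinearMap.mem_ker.mp x.2) hs
  · intro x y hxy
    have e := congrArg (fun X : fixedOn r ((padicPlace p).decompositionSubgroup ℚ) =>
      Pi * (X : M2 k) * P) hxy
    simp only [LinearMap.codRestrict_apply, LinearMap.comp_apply, Submodule.subtype_apply,
      planeMap, LinearMap.coe_mk, AddHom.coe_mk, ← mul_assoc, hP', one_mul] at e
    simp only [mul_assoc, hP', mul_one] at e
    refine Subtype.ext (Prod.ext ?_ ?_)
    · exact congrFun (congrFun e 0) 1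
    · exact congrFun (congrFun e 0) 0

omit [Finite k] [CharP k p] in
/-- A determinant reducing to the `p + 1`-st power of a primitive tame character is not one at a
tame generator. -/
private theorem det_ne_one (hp2 : p ≠ 2) (ι : k →+* Res p) {τ : Gal}
    (hτprim : IsPrimitiveRoot (theta p τ) (e₀ p))
    (ha₀ : ι (r τ).det = thetaBar p τ ^ (p + 1)) : (r τ).det ≠ 1 := fun h => by
  rw [h, map_one] at ha₀
  have h3 := Nat.le_of_dvd (Nat.succ_pos p)
    ((isPrimitiveRoot_thetaBar p hτprim).dvd_of_pow_eq_one _ ha₀.symm)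
  rw [e₀_eq] at h3
  have h4 : 2 ≤ p - 1 := by
    have := hp.out.two_le
    omega
  have := Nat.mul_le_mul_left (p + 1) h4
  omega

omit [Finite k] [CharP k p] in
/-- In the frame of `fr` a strictly ordinary class is, up to the coboundary of a trace zero matrix,
a class with values in the line. -/
private theorem exists_sub_cobd_mem_line (h2 : (2 : k) ≠ 0) {τ : Gal}
    (hτ : τ ∈ (padicPlace p).inertiaSubgroupIn ℚ) (ha₁ : (r τ).det ≠ 1) {b b' : Gal → M2 k}
    (fr : OrdFrame p r b') (f : OrdFrame p r b) :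
    ∃ X' ∈ LinearMap.ker (Matrix.traceLinearMap (Fin 2) k k),
      localise p fr.Z fr.Zi (b - cobdLin r X') ∈ lineFun k := by
  set X' : M2 k := f.X - (f.X.trace / 2) • (1 : M2 k)
  have hX' : X' ∈ LinearMap.ker (Matrix.traceLinearMap (Fin 2) k k) := LinearMap.mem_ker.mpr (by
    show (f.X - (f.X.trace / 2) • (1 : M2 k)).trace = 0
    simp [Matrix.trace_fin_two]
    field_simp
    ring)
  have hcob : cobdLin r X' = cobdLin r f.X := funext fun g => by
    simp only [X', cobdLin_apply, mul_sub, sub_mul, mul_smul_comm, smul_mul_assoc, mul_one,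
      CFT.Tangent.map_mul_inv]
    abel
  refine ⟨X', hX', fun g => ?_⟩
  by_cases hg : g ∈ decG p
  swap
  · rw [localise_notMem fr.Z fr.Zi _ hg]
    exact ⟨rfl, rfl, rfl⟩
  rw [localise_mem fr.Z fr.Zi _ hg, _root_.Pi.sub_apply, hcob]
  exact entries_of_frame hτ ha₁ fr f hg

omit [CharP k p] [Finite k] in
/-- A class killed in the quotient by the localised coboundaries is a coboundary on the
decomposition group. -/
private theorem finrank_ker_le_inf_cobdOn {P Pi : M2 k} (hP : P * Pi = 1)
    (V : Submodule k (Gal → M2 k)) [Module.Finite k V] :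
    finrank k (LinearMap.ker ((LinearMap.range ((localise p P Pi).comp ((cobdLin r).comp
        (LinearMap.ker (Matrix.traceLinearMap (Fin 2) k k)).subtype))).mkQ.comp
          ((localise p P Pi).comp V.subtype))) ≤
      finrank k (V ⊓ cobdOn r ((padicPlace p).decompositionSubgroup ℚ) :
        Submodule k (Gal → M2 k)) := by
  rw [← (Submodule.equivSubtypeMap V (LinearMap.ker _)).finrank_eq.symm]
  refine Submodule.finrank_mono ?_
  rintro _ ⟨b, hb', rfl⟩
  obtain ⟨X, hX⟩ := (Submodule.Quotient.mk_eq_zero _).mp (LinearMap.mem_ker.mp hb')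
  refine ⟨b.2, X, LinearMap.mem_ker.mp X.2, fun s hs => sub_eq_zero.mp ?_⟩
  exact eq_zero_of_localise_eq_zero hP (c := (b : Gal → M2 k) - cobdLin r (X : M2 k)) (by
    rw [map_sub, sub_eq_zero]; exact hX.symm) hs

/-! ## The bounds -/

/-- The defect zero bound at `p` for classes that are flat and strictly ordinary. -/
theorem flatStrictBound (hp2 : p ≠ 2) : FlatStrictBound k p := by
  classical
  intro r hfin hcyc _hsplit V _ hcoc hlev htr hflat hstr
  let := ZMod.algebra k p
  show finrank k V + 0 ≤ _ + _ + 0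
  rw [add_zero, add_zero]
  rcases eq_or_ne V ⊥ with rfl | hV
  · simp [finrank_bot]
  have h2 : (2 : k) ≠ 0 := fun h =>
    hp2 ((Nat.prime_dvd_prime_iff_eq hp.out Nat.prime_two).mp
      ((CharP.cast_eq_zero_iff k p 2).mp (by simpa using h)))
  obtain ⟨b₀, hb₀, hne⟩ := Submodule.exists_mem_ne_zero_of_ne_bot hV
  obtain ⟨ρ₀, B₀, ho, hd, hm⟩ := hstr b₀ hb₀ hne
  obtain ⟨fr⟩ := nonempty_ordFrame hcyc h2 ho hd hm
  obtain ⟨τ, hτ, hτprim, hgen⟩ := exists_tame_generator p
  have : IsAlgClosed (Res p) := residueField_isAlgClosed (padicPlace p)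
  let : Algebra (ZMod p) (Res p) := ZMod.algebra _ p
  let ι : k →+* Res p := (IsAlgClosed.lift (R := ZMod p) (S := k) (M := Res p)).toRingHom
  have ha₀ : ι (r τ).det = thetaBar p τ ^ (p + 1) := iota_det hcyc ι hτ
  have ha₁ : (r τ).det ≠ 1 := det_ne_one hp2 ι hτprim ha₀
  set P := fr.Z with hPdef
  set Pi := fr.Zi with hPidef
  have hP : P * Pi = 1 := fr.mul_inv
  have hP' : Pi * P = 1 := fr.inv_mul
  set r' := conjR r P Pi hP hP' with hr'
  set Φ := localise p P Pi with hΦdef
  have hup : ∀ g ∈ decG p, r' g 1 0 = 0 ∧ r' g 0 0 = (r g).det * r' g 1 1 ∧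
      r' g 1 1 * r' g 1 1 = 1 := fun g hg => by
    obtain ⟨x, z, c, h, hx, hz, -⟩ := fr.upper g hg
    have e : r' g = !![x, c; 0, z] := by
      show Pi * r g * P = _
      rw [mul_assoc, h, ← mul_assoc, hP', one_mul]
    exact ⟨by rw [e]; rfl, by rw [e]; exact hx, by rw [e]; exact hz⟩
  -- coboundaries of upper triangular matrices lie in the line
  have hplane : ∀ (x : k × k), Φ (cobdLin r (planeMap P Pi x)) ∈ lineFun k :=
    localise_cobd_planeMap_mem_line hP hP' hr' hup
  set sl : Submodule k (M2 k) := LinearMap.ker (Matrix.traceLinearMap (Fin 2) k k)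
  have htrace : ∀ x, planeMap P Pi x ∈ sl := fun x => LinearMap.mem_ker.mpr (trace_planeMap hP' x)
  -- the flat cocycles in the line
  set U := (V ⊔ sl.map (cobdLin r)).map Φ
  set T := U ⊓ lineFun k
  have hcls : ∀ c ∈ T.toAddSubgroup, IsLocalClass p r' c := fun c hc =>
    isLocalClass_localise hfin V hcoc hlev htr hflat hb₀ hne hP hP' hc.1
  have hT : finrank k T ≤ 2 :=
    finrank_lineClasses_le_two hfin hup ι hτ hτprim hgen ha₀ T inf_le_right hcls
  -- the coboundaries inside
  set f₀ : sl →ₗ[k] (Gal → M2 k) := Φ.comp ((cobdLin r).comp sl.subtype) with hf₀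
  set U₀ := LinearMap.range f₀
  set π := U₀.mkQ.comp T.subtype
  set G : (k × k) →ₗ[k] T := LinearMap.codRestrict T (Φ.comp ((cobdLin r).comp (planeMap P Pi)))
    fun x => ⟨⟨_, Submodule.mem_sup_right ⟨_, htrace x, rfl⟩, rfl⟩, hplane x⟩
  have hG : finrank k (LinearMap.ker G) ≤
      finrank k (fixedOn r ((padicPlace p).decompositionSubgroup ℚ)) := by
    rw [LinearMap.ker_codRestrict]
    exact finrank_ker_plane_le hP hP'
  have hGπ : LinearMap.range G ≤ LinearMap.ker π := by
    rintro _ ⟨x, rfl⟩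
    exact LinearMap.mem_ker.mpr ((Submodule.Quotient.mk_eq_zero _).mpr ⟨⟨_, htrace x⟩, rfl⟩)
  set Λ : V →ₗ[k] (Gal → M2 k) ⧸ U₀ := U₀.mkQ.comp (Φ.comp V.subtype)
  have hΛ : LinearMap.range Λ ≤ LinearMap.range π := by
    rintro _ ⟨⟨b, hbV⟩, rfl⟩
    rcases eq_or_ne b 0 with rfl | hb0
    · rw [show (⟨0, hbV⟩ : V) = 0 from rfl, map_zero]
      exact zero_mem _
    obtain ⟨ρ, B, ho', hd', hm'⟩ := hstr b hbV hb0
    obtain ⟨f⟩ := nonempty_ordFrame hcyc h2 ho' hd' hm'
    obtain ⟨X', hX', hline⟩ := exists_sub_cobd_mem_line h2 hτ ha₁ fr f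
    have hmem : Φ (b - cobdLin r X') ∈ T := ⟨⟨_, sub_mem (Submodule.mem_sup_left hbV)
      (Submodule.mem_sup_right ⟨X', hX', rfl⟩), rfl⟩, hline⟩
    refine ⟨⟨_, hmem⟩, (Submodule.Quotient.eq _).mpr ⟨-⟨X', hX'⟩, ?_⟩⟩
    show f₀ (-⟨X', hX'⟩) = Φ (b - cobdLin r X') - Φ b
    rw [map_neg, map_sub, sub_sub_cancel_left]
    rfl
  have hker : finrank k (LinearMap.ker Λ) ≤
      finrank k (V ⊓ cobdOn r ((padicPlace p).decompositionSubgroup ℚ) :
        Submodule k (Gal → M2 k)) := finrank_ker_le_inf_cobdOn hP V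
  have e1 := G.finrank_range_add_finrank_ker
  rw [Module.finrank_prod, Module.finrank_self] at e1
  have e2 := π.finrank_range_add_finrank_ker
  have e3 := Submodule.finrank_mono hGπ
  have e4 := Submodule.finrank_mono hΛ
  have e5 := Λ.finrank_range_add_finrank_ker
  omega

/-- Taylor–Wiles primes and the tangent bound for all patterns. -/
theorem hasPatternBound {O : Type} [CommRing O] [IsLocalRing O] [IsNoetherianRing O]
    {W : Rigid O} [Finite (IsLocalRing.ResidueField O)] [CharP (IsLocalRing.ResidueField O) p]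
    (hp2 : p ≠ 2) (hr : CFT.TWPrimes.TWHyp W.rb) (hfin : GaloisFactorsThroughFiniteLevel W.rb)
    (hcyc : ∀ (σ : Gal) (a : ℕ), (∀ μ : QBar, μ ^ p = 1 → σ μ = μ ^ a) →
      (W.rb σ).det = (a : IsLocalRing.ResidueField O)) : HasPatternBound W p :=
  hasPatternBound_of hp2 hr hfin hcyc (flatStrictBound hp2)

end Fermat.Agent.RT.Pattern
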