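import Fermat.Agent.RT.Assembly.Tame
import Fermat.Agent.CFT.Tangent.LocalBounds
import Fermat.Agent.CFT.TWPrimes.SelmerBound

/-!
# Local bounds at a prime `q ≠ p` where `r` is unramified and Frobenius is not a scalar

Unramified classes fixing the trace of Frobenius lose one dimension; classes of special type with
a fixed sign lose none.
-/

set_option autoImplicit false

noncomputable section

namespace Fermat.Agent.RT.Pattern

open Fermat.Agent.Deform Fermat.Agent.Arith Fermat.Agent.CFT.Tangent Fermat.Agent.CFT Module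

variable {k : Type} [Field k]

/-- Left multiples by a nonzero matrix vanish on at most a line of the trace zero matrices. -/
theorem finrank_annihilated_le {A : M2 k} (hA : A ≠ 0)
    (S : Submodule k (M2 k)) (hS : ∀ X ∈ S, X.trace = 0 ∧ A * X = 0) : finrank k S ≤ 1 := by
  obtain ⟨i, hi⟩ : ∃ i, A i 0 ≠ 0 ∨ A i 1 ≠ 0 := by
    by_contra! h
    exact hA (Matrix.ext fun i j => by fin_cases j <;> simp [h i])
  have hrow : ∀ X ∈ S, ∀ c, A i 0 * X 0 c + A i 1 * X 1 c = 0 := fun X hX c => by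
    simpa [Matrix.mul_apply, Fin.sum_univ_two] using congrFun (congrFun (hS X hX).2 i) c
  have htr : ∀ X ∈ S, X 0 0 + X 1 1 = 0 := fun X hX => by
    simpa [Matrix.trace_fin_two] using (hS X hX).1
  rw [← Module.finrank_self k]
  by_cases h0 : A i 0 = 0
  · have h1 : A i 1 ≠ 0 := hi.resolve_left (not_not.mpr h0)
    refine LinearMap.finrank_le_finrank_of_injective
      (f := (Matrix.entryLinearMap k k 0 1).comp S.subtype) ?_
    refine (injective_iff_map_eq_zero _).mpr fun ⟨X, hX⟩ h => ?_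
    have h10 : X 1 0 = 0 := by
      have := hrow X hX 0; rw [h0, zero_mul, zero_add] at this
      exact (mul_eq_zero.mp this).resolve_left h1
    have h11 : X 1 1 = 0 := by
      have := hrow X hX 1; rw [h0, zero_mul, zero_add] at this
      exact (mul_eq_zero.mp this).resolve_left h1
    have h00 : X 0 0 = 0 := by linear_combination htr X hX - h11
    have h01 : X 0 1 = 0 := h
    exact Subtype.ext (Matrix.ext fun a b => by fin_cases a <;> fin_cases b <;> simpa)
  · refine LinearMap.finrank_le_finrank_of_injective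
      (f := (Matrix.entryLinearMap k k 1 0).comp S.subtype) ?_
    refine (injective_iff_map_eq_zero _).mpr fun ⟨X, hX⟩ h => ?_
    have h10 : X 1 0 = 0 := h
    have h00 : X 0 0 = 0 := by
      have := hrow X hX 0; rw [h10, mul_zero, add_zero] at this
      exact (mul_eq_zero.mp this).resolve_left h0
    have h11 : X 1 1 = 0 := by linear_combination htr X hX - h00
    have h01 : X 0 1 = 0 := by
      have := hrow X hX 1; rw [h11, mul_zero, add_zero] at this
      exact (mul_eq_zero.mp this).resolve_left h0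
    exact Subtype.ext (Matrix.ext fun a b => by fin_cases a <;> fin_cases b <;> simpa)

variable {r : Gal →* M2 k} {q : ℕ} [Fact q.Prime]

/-- The class at a Frobenius element and the values on inertia determine a class locally; with a
fixed trace of Frobenius the class loses one dimension. -/
theorem finrank_le_of_trace_fixed (hr : GaloisFactorsThroughFiniteLevel r)
    (V : Submodule k (Gal → M2 k)) [Module.Finite k V]
    (hcoc : ∀ b ∈ V, IsAdCocycle r b) (hlev : ∀ b ∈ V, IsFiniteLevel b)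
    (htr : ∀ b ∈ V, ∀ σ, (b σ).trace = 0)
    (hr1 : ∀ τ ∈ (padicPlace q).inertiaSubgroupIn ℚ, r τ = 1)
    {F : Gal} (hF : (padicPlace q).IsFrobeniusAt F q) (hns : ∀ c : k, r F ≠ c • 1)
    (hbF : ∀ b ∈ V, (b F * r F).trace = 0)
    {W : Type} [AddCommGroup W] [Module k W] [Module.Finite k W] (Φ : V →ₗ[k] W)
    (hΦ : ∀ b : V, Φ b = 0 → ∀ τ ∈ (padicPlace q).inertiaSubgroupIn ℚ, (b : Gal → M2 k) τ = 0) :
    finrank k V + 1 ≤ finrank k (V ⊓ cobdOn r ((padicPlace q).decompositionSubgroup ℚ) :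
        Submodule k (Gal → M2 k)) +
      finrank k (fixedOn r ((padicPlace q).decompositionSubgroup ℚ)) + finrank k W := by
  set D := (padicPlace q).decompositionSubgroup ℚ with hDdef
  obtain ⟨L, hLf, hLn, hL⟩ := exists_common_level hr V hlev
  let sl : Submodule k (M2 k) := LinearMap.ker (Matrix.traceLinearMap (Fin 2) k k)
  have hsl : ∀ X, X ∈ sl ↔ X.trace = 0 := fun X => LinearMap.mem_ker
  let T : sl →ₗ[k] sl :=
    { toFun := fun X => ⟨cobdLin r (X : M2 k) F, (hsl _).mpr (trace_cobdLin r _ F)⟩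
      map_add' := fun X Y => Subtype.ext (congrFun (map_add (cobdLin r) (X : M2 k) Y) F)
      map_smul' := fun c X => Subtype.ext (congrFun (map_smul (cobdLin r) c (X : M2 k)) F) }
  -- the trace functional on the coinvariants
  let φ : sl →ₗ[k] k := (Matrix.traceLinearMap (Fin 2) k k).comp
    ((LinearMap.mulRight k (r F)).comp sl.subtype)
  have hTφ : LinearMap.range T ≤ LinearMap.ker φ := by
    rintro _ ⟨X, rfl⟩
    rw [LinearMap.mem_ker]
    show ((r F * (X : M2 k) * r F⁻¹ - (X : M2 k)) * r F).trace = 0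
    rw [sub_mul, Matrix.trace_sub, mul_assoc _ (r F⁻¹), Tangent.map_inv_mul, mul_one,
      Matrix.trace_mul_comm, sub_self]
  let φ' : (sl ⧸ LinearMap.range T) →ₗ[k] k := (LinearMap.range T).liftQ φ hTφ
  have hφ' : LinearMap.ker φ' ≠ ⊤ := fun htop => by
    have hall : ∀ X : sl, φ X = 0 := fun X => by
      have h : φ' (Submodule.Quotient.mk X) = 0 :=
        LinearMap.mem_ker.mp (htop ▸ Submodule.mem_top)
      rwa [Submodule.liftQ_apply] at h
    have e : ∀ X : M2 k, X.trace = 0 → (X * r F).trace = 0 := fun X hX =>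
      hall ⟨X, (hsl _).mpr hX⟩
    have e01 := e (Matrix.single 0 1 1) (by simp [Matrix.trace_fin_two, Matrix.single])
    have e10 := e (Matrix.single 1 0 1) (by simp [Matrix.trace_fin_two, Matrix.single])
    have ed := e !![1, 0; 0, -1] (by simp [Matrix.trace_fin_two])
    simp [Matrix.trace_fin_two, Matrix.mul_apply, Matrix.vecMul, dotProduct, Fin.sum_univ_two,
        Matrix.single] at e01 e10 ed
    refine hns (r F 0 0) (Matrix.ext fun a b => ?_)
    fin_cases a <;> fin_cases b <;> simp [e01, e10]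
    linear_combination -ed
  have hlt := Submodule.finrank_lt hφ'
  have hagree := exists_agree_frobenius (V := V) hF hL hr1
  have hW : finrank k (sl ⧸ LinearMap.range T) ≤ finrank k (fixedOn r D) :=
    finrank_quotient_range_le_fixedOn T (fun _ => rfl) fun s hs => (hagree s hs).imp fun _ h => h.1
  let Λ₁ : V →ₗ[k] LinearMap.ker φ' := LinearMap.codRestrict (LinearMap.ker φ')
    ((LinearMap.range T).mkQ.comp (LinearMap.codRestrict sl ((LinearMap.proj F).comp V.subtype)
      fun b => (hsl _).mpr (htr _ b.2 F)))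
    fun b => LinearMap.mem_ker.mpr (hbF _ b.2)
  have hmain := finrank_le_inf_add (V := V) (V₀ := V) (K := cobdOn r D) le_sup_left
    (Λ₁.prod Φ) fun b hb => ?_
  · rw [Module.finrank_prod] at hmain
    omega
  obtain ⟨hb1, hb2⟩ := Prod.mk_eq_zero.mp hb
  obtain ⟨X, hX⟩ := (Submodule.Quotient.mk_eq_zero _).mp (congrArg Subtype.val hb1)
  exact mem_cobdOn_of_eq_at_frobenius hagree hL hr1 b.2 (hcoc _ b.2) (hΦ b hb2)
    ((hsl _).mp X.2) (congrArg Subtype.val hX)

/-- The bound at an unramified prime with fixed trace of Frobenius. -/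
theorem finrank_le_both (hr : GaloisFactorsThroughFiniteLevel r)
    (V : Submodule k (Gal → M2 k)) [Module.Finite k V]
    (hcoc : ∀ b ∈ V, IsAdCocycle r b) (hlev : ∀ b ∈ V, IsFiniteLevel b)
    (htr : ∀ b ∈ V, ∀ σ, (b σ).trace = 0)
    (hr1 : ∀ τ ∈ (padicPlace q).inertiaSubgroupIn ℚ, r τ = 1)
    {F : Gal} (hF : (padicPlace q).IsFrobeniusAt F q) (hns : ∀ c : k, r F ≠ c • 1)
    (hbF : ∀ b ∈ V, (b F * r F).trace = 0)
    (hb0 : ∀ b ∈ V, ∀ τ ∈ (padicPlace q).inertiaSubgroupIn ℚ, b τ = 0) :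
    TWPrimes.LocalBound r V q 1 0 := by
  have h := finrank_le_of_trace_fixed hr V hcoc hlev htr hr1 hF hns hbF
    (0 : V →ₗ[k] (⊥ : Submodule k k)) fun b _ => hb0 b b.2
  rw [finrank_bot, add_zero] at h
  exact h

/-- The bound at an unramified prime for classes of special type with a given eigenvalue `a`. -/
theorem finrank_le_special (p : ℕ) [Fact p.Prime] [CharP k p] (hqp : q ≠ p)
    (hr : GaloisFactorsThroughFiniteLevel r)
    (V : Submodule k (Gal → M2 k)) [Module.Finite k V]
    (hcoc : ∀ b ∈ V, IsAdCocycle r b) (hlev : ∀ b ∈ V, IsFiniteLevel b)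
    (htr : ∀ b ∈ V, ∀ σ, (b σ).trace = 0)
    (hr1 : ∀ τ ∈ (padicPlace q).inertiaSubgroupIn ℚ, r τ = 1)
    {F : Gal} (hF : (padicPlace q).IsFrobeniusAt F q) (hns : ∀ c : k, r F ≠ c • 1)
    (hbF : ∀ b ∈ V, (b F * r F).trace = 0) (a : k)
    (hline : ∀ b ∈ V, ∀ τ ∈ (padicPlace q).inertiaSubgroupIn ℚ, (r F - a • 1) * b τ = 0) :
    TWPrimes.LocalBound r V q 0 0 := by
  have hp : p.Prime := Fact.out
  have hq : q.Prime := Fact.out
  have hA := Local.padicPlace_liesOverPrime q
  let := ZMod.algebra k p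
  obtain ⟨π, hπ⟩ := IsAlgClosed.exists_pow_nat_eq (q : QBar) hp.pos
  obtain ⟨σ₀, hσ₀, hσ₀π⟩ := Mazur.Eisenstein.exists_inertia_ne hA hq hp hπ
  have hπ0 : π ≠ 0 := fun h => hq.ne_zero (by
    rw [h, zero_pow hp.ne_zero] at hπ; exact_mod_cast hπ.symm)
  have hπord : Mazur.Eisenstein.ordAt (padicPlace q) q π = ((1 : ℤ) : ℚ) / p := by
    have h1 := Mazur.Eisenstein.ordAt_pow hA hq hπ0 p
    rw [hπ, Mazur.Eisenstein.ordAt_prime hA hq] at h1
    rw [Int.cast_one, eq_div_iff (Nat.cast_ne_zero.mpr hp.ne_zero : (p : ℚ) ≠ 0)]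
    linear_combination -h1
  have hζ : (σ₀ π / π) ^ p = 1 := by
    rw [div_pow, ← map_pow, hπ, map_natCast, div_self (by exact_mod_cast hq.ne_zero)]
  have hζA : σ₀ π / π ∈ padicPlace q := (EC.Rep.apply_div_self_mem hσ₀ hπ0).1
  have hres : EC.Reduction.res (padicPlace q) (σ₀ π / π) ≠ 1 := fun h => hσ₀π (by
    have e := root_congr hA hq (m := p) hζ (one_pow p)
      (fun hd => hqp ((Nat.prime_dvd_prime_iff_eq hq hp).mp hd))
      ((EC.Reduction.res_eq_zero_iff (sub_mem hζA (padicPlace q).one_mem)).mp (by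
        rw [EC.Reduction.res_sub hζA (padicPlace q).one_mem, h, EC.Reduction.res_one, sub_self]))
    exact (div_eq_one_iff_eq hπ0).mp e)
  have hresp : EC.Reduction.res (padicPlace q) (σ₀ π / π) ^ p = 1 := by
    rw [← EC.Reduction.res_pow hζA, hζ, EC.Reduction.res_one]
  -- a class zero at `σ₀` is zero on inertia
  have hI0 : ∀ b ∈ V, b σ₀ = 0 → ∀ τ ∈ (padicPlace q).inertiaSubgroupIn ℚ, b τ = 0 := by
    intro b hb hb0 τ hτ
    refine (Module.forall_dual_apply_eq_zero_iff (ZMod p) (b τ)).mp fun f => ?_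
    refine Assembly.eq_zero_of_apply_eq_zero hp hA hq hqp (fun g => f (b g))
      (fun g hg g' _ => ?_) ?_ hσ₀ hπ0 hπord hres hresp (show f (b σ₀) = 0 by rw [hb0, map_zero])
      τ hτ
    · have hg' : r g⁻¹ = 1 := hr1 _ (inv_mem hg)
      rw [hcoc b hb, hr1 g hg, hg', one_mul, mul_one, map_add, add_comm]
    · obtain ⟨L, hL, hL'⟩ := hlev b hb
      exact ⟨L, hL, fun g hg => by rw [hL' g hg, map_zero]⟩
  let U : Submodule k (M2 k) := V.map ((LinearMap.proj σ₀ : (Gal → M2 k) →ₗ[k] M2 k))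
  have hU : finrank k U ≤ 1 := finrank_annihilated_le (A := r F - a • 1)
    (sub_ne_zero.mpr (hns a)) U (by
      rintro _ ⟨b, hb, rfl⟩
      exact ⟨htr b hb σ₀, hline b hb σ₀ hσ₀⟩)
  let Φ : V →ₗ[k] U := LinearMap.codRestrict U ((LinearMap.proj σ₀).comp V.subtype)
    fun b => ⟨b, b.2, rfl⟩
  have h := finrank_le_of_trace_fixed hr V hcoc hlev htr hr1 hF hns hbF Φ fun b hb0 =>
    hI0 b b.2 (congrArg Subtype.val hb0)
  show _ + 0 ≤ _
  omega

end Fermat.Agent.RT.Pattern
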