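import Fermat.Agent.RT.Pattern.Defs
import Fermat.Agent.RT.Pattern.LocalSpecial
import Fermat.Agent.CFT.TWPrimes.Bound
import Fermat.Agent.CFT.Tangent.FlatBound
import Fermat.Agent.CFT.Tangent.OrdinaryBound

/-!
# The tangent bound of a pattern

The classes of the derivations killing the coordinates form a space with the local bounds of the
pattern, given that for flat and strictly ordinary classes at `p` (`FlatStrictBound`); the Selmer
bound at the auxiliary primes gives the count.
-/

set_option autoImplicit false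

noncomputable section

namespace Fermat.Agent.RT.Pattern

open IsLocalRing Fermat.Agent.Deform Fermat.Agent.CFT.Tangent Fermat.Agent.Arith Module
open Fermat.Agent.CFT.TWPrimes (LocalBound)

/-- The defect zero bound for classes that are flat and strictly ordinary at `p`. -/
def FlatStrictBound (k : Type) [Field k] (p : ℕ) [Fact p.Prime] : Prop :=
  ∀ (r : Gal →* M2 k), GaloisFactorsThroughFiniteLevel r →
    (∀ (σ : Gal) (n : ℕ), (∀ μ : QBar, μ ^ p = 1 → σ μ = μ ^ n) → (r σ).det = (n : k)) →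
    (∀ σ, ∃ α β : k, (r σ).trace = α + β ∧ (r σ).det = α * β) →
    ∀ (V : Submodule k (Gal → M2 k)), Module.Finite k V → (∀ b ∈ V, IsAdCocycle r b) →
      (∀ b ∈ V, IsFiniteLevel b) → (∀ b ∈ V, ∀ σ, (b σ).trace = 0) →
      (∀ b ∈ V, b ≠ 0 → ∃ (ρ : GaloisRepAdic (DualNumber k))
        (B : Basis (Fin 2) (DualNumber k) ρ.V), ρ.IsFlatAt p ∧
          ∀ σ, matOf ρ B σ = (1 + epsM (b σ)) * inlM (r σ)) →
      (∀ b ∈ V, b ≠ 0 → ∃ (ρ : GaloisRepAdic (DualNumber k))
        (B : Basis (Fin 2) (DualNumber k) ρ.V), ρ.IsStrictOrdinaryAt p ∧ ρ.DetIsCyclotomic p ∧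
          ∀ σ, matOf ρ B σ = (1 + epsM (b σ)) * inlM (r σ)) →
      LocalBound r V p 0 0

variable {O : Type} [CommRing O] [IsLocalRing O]
variable {R : Type} [CommRing R] [IsLocalRing R] [Algebra O R] {W : Rigid O} {h : IsResAlg O R}
  {ru : Gal →* M2 R}

theorem tangentDer_intCast (δ : tangentDer h) (n : ℤ) : δ.1 (n : R) = 0 := by
  have := δ.2.2.2 (n : O)
  rwa [map_intCast] at this

/-- A strictly ordinary deformation to dual numbers with a given class. -/
theorem exists_strict_dual (p : ℕ) (hl : Lifts W h ru) (hc : IsCont ru)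
    (hstr : (toRep ru hc).IsStrictOrdinaryAt p) (hdet : (toRep ru hc).DetIsCyclotomic p)
    (δ : tangentDer h) :
    letI := dualAlgebra O
    ∃ (ρ : GaloisRepAdic (DualNumber (ResidueField O)))
      (B : Basis (Fin 2) (DualNumber (ResidueField O)) ρ.V), ρ.IsStrictOrdinaryAt p ∧
      ρ.DetIsCyclotomic p ∧
      ∀ σ, matOf ρ B σ = (1 + epsM (tangentCls W h ru δ σ)) * inlM (W.rb σ) := by
  let := dualAlgebra O
  refine ⟨_, letI := (tangentHom h δ : R →+* DualNumber (ResidueField O)).toAlgebra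
      (Pi.basisFun R (Fin 2)).baseChange (DualNumber (ResidueField O)),
    IsStrictOrdinaryAt.baseChange (tangentHom h δ : R →+* DualNumber (ResidueField O))
      (Assembly.isLocalHom_tangentHom δ) hstr,
    DetIsCyclotomic.baseChange (tangentHom h δ : R →+* DualNumber (ResidueField O))
      (Assembly.isLocalHom_tangentHom δ) hdet, fun σ => ?_⟩
  refine (DFunLike.congr_fun (matOf_baseChangeAlong _ (Assembly.isLocalHom_tangentHom δ)
    (toRep ru hc) (Pi.basisFun R (Fin 2))) σ).trans ?_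
  rw [matOf_toRep]
  exact mapM_tangentHom hl δ σ

/-- The residual and first order forms of the special relation. -/
theorem sub_smul_mul_tangentCls (hl : Lifts W h ru) (δ : tangentDer h) (a : O) {F τ : Gal}
    (hτ : W.rb τ = 1) (h0 : (ru F - algebraMap O R a • 1) * (ru τ - 1) = 0) :
    (W.rb F - residue O a • 1) * tangentCls W h ru δ τ = 0 := by
  let := dualAlgebra O
  set f : R →+* DualNumber (ResidueField O) := (tangentHom h δ).toRingHom
  have hf : ∀ σ, f.mapMatrix (ru σ) = (1 + epsM (tangentCls W h ru δ σ)) * inlM (W.rb σ) :=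
    fun σ => mapM_tangentHom hl δ σ
  have hsmul : f.mapMatrix (algebraMap O R a • (1 : M2 R)) =
      inlM (residue O a • (1 : M2 (ResidueField O))) := by
    ext i j : 1
    simp only [RingHom.mapMatrix_apply, Matrix.map_apply, Matrix.smul_apply, smul_eq_mul]
    refine TrivSqZeroExt.ext ?_ ?_ <;> by_cases hij : i = j <;>
      simp [f, hij, inlM, Matrix.one_apply] <;> rfl
  have h1 := congrArg f.mapMatrix h0
  rw [map_mul, map_sub, map_sub, map_one, hsmul, hf, hf, map_zero] at h1
  have h2 := congrArg sndM h1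
  simp only [sndM_mul, fstM_sub, fstM_mul, fstM_add, sndM_add, sndM_sub, fstM_one, sndM_one,
    fstM_epsM, sndM_epsM, fstM_inlM, sndM_inlM, hτ, add_zero, zero_add, one_mul, mul_one,
    mul_zero, sub_zero, sub_self] at h2
  exact h2.trans (Matrix.ext fun i j => rfl)

theorem trace_tangentCls_mul_rb_of_intCast (δ : tangentDer h) {σ : Gal} {n : ℤ}
    (hσ : (ru σ).trace = (n : R)) : (tangentCls W h ru δ σ * W.rb σ).trace = 0 := by
  rw [Assembly.trace_tangentCls_mul_rb, hσ, tangentDer_intCast]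

/-- The residual trace of an element with integral trace. -/
theorem trace_rb_of_intCast (hl : Lifts W h ru) {σ : Gal} {n : ℤ} (hσ : (ru σ).trace = (n : R)) :
    (W.rb σ).trace = (n : ResidueField O) := by
  have e := congrArg (augment h) hσ
  rw [map_intCast, Matrix.trace_fin_two, map_add, hl, hl] at e
  rw [Matrix.trace_fin_two]
  exact e

theorem finrank_ker_trace (k : Type) [Field k] :
    finrank k (LinearMap.ker (Matrix.traceLinearMap (Fin 2) k k)) = 3 := by
  have h1 := (Matrix.traceLinearMap (Fin 2) k k).finrank_range_add_finrank_ker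
  have hsurj : LinearMap.range (Matrix.traceLinearMap (Fin 2) k k) = ⊤ :=
    LinearMap.range_eq_top.mpr fun c => ⟨!![c, 0; 0, 0], by simp [Matrix.trace_fin_two]⟩
  rw [hsurj, finrank_top, Module.finrank_self, Module.finrank_matrix, Fintype.card_fin,
    Module.finrank_self] at h1
  exact Nat.add_left_cancel (n := 1) h1

/-- Classes vanishing at a scalar place. -/
theorem localBound_scalar {k : Type} [Field k] {r : Gal →* M2 k} {q : ℕ} [Fact q.Prime]
    (hr : GaloisFactorsThroughFiniteLevel r)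
    (hr1 : ∀ τ ∈ (padicPlace q).inertiaSubgroupIn ℚ, r τ = 1) {F : Gal}
    (hF : (padicPlace q).IsFrobeniusAt F q) {c : k} (hc : r F = c • 1)
    (V : Submodule k (Gal → M2 k))
    (h0 : ∀ b ∈ V, ∀ g ∈ (padicPlace q).decompositionSubgroup ℚ, b g = 0) :
    LocalBound r V q 3 0 := by
  have hV : V ⊓ cobdOn r ((padicPlace q).decompositionSubgroup ℚ) = V := inf_eq_left.mpr fun b hb =>
    ⟨0, Matrix.trace_zero (Fin 2) k, fun s hs => by rw [h0 b hb s hs, mul_zero, zero_mul, sub_zero]⟩
  have hfix : LinearMap.ker (Matrix.traceLinearMap (Fin 2) k k) ≤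
      fixedOn r ((padicPlace q).decompositionSubgroup ℚ) := fun X hX => by
    refine ⟨hX, fun s hs => ?_⟩
    obtain ⟨L, hLf, hLn, hL⟩ := exists_common_level hr ⊥
      fun b hb => ⟨⊥, inferInstance, fun σ _ => by rw [(Submodule.mem_bot k).mp hb]; rfl⟩
    obtain ⟨i, τ, hτ, he⟩ := exists_frobenius_mul_inertia L hF hs
    have hs' : r s = c ^ i • 1 := by
      rw [map_eq_of_agree (fun σ h => (hL σ h).1) he, map_mul, hr1 τ hτ, mul_one, map_pow, hc,
        smul_pow, one_pow]
    have hcomm : r s * X = X * r s := by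
      rw [hs', smul_mul_assoc, one_mul, mul_smul_comm, mul_one]
    rw [hcomm, mul_assoc, CFT.Tangent.map_mul_inv, mul_one]
  have h3 := Submodule.finrank_mono hfix
  rw [finrank_ker_trace] at h3
  show finrank k V + 3 ≤ finrank k (V ⊓ cobdOn r _ : Submodule k (Gal → M2 k)) + _ + 0
  rw [hV]
  exact Nat.add_le_add_left h3 _

section LocalBounds

variable {p : ℕ} [Fact p.Prime] [CharP (ResidueField O) p] [Finite (ResidueField O)]
  (hl : Lifts W h ru) (hc : IsCont ru)
  {P : Pat} {Q : Set ℕ} {C : Type} {x : C → R}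
  (V : Submodule (ResidueField O) (Gal → M2 (ResidueField O))) [Module.Finite (ResidueField O) V]
  (hV : ∀ b ∈ V, ∃ δ ∈ Assembly.killedDer h x, b = tangentCls W h ru δ)
  (hcoc : ∀ b ∈ V, IsAdCocycle W.rb b) (hlev : ∀ b ∈ V, IsFiniteLevel b)
  (htr : ∀ b ∈ V, ∀ σ, (b σ).trace = 0)
include hl hV hcoc hlev htr

/-- At `p` the tangent classes of a pattern have the bound of the condition there. -/
private theorem localBound_atP (hp2 : p ≠ 2) (hr : CFT.TWPrimes.TWHyp W.rb)
    (hfin : GaloisFactorsThroughFiniteLevel W.rb)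
    (hcyc : ∀ (σ : Gal) (a : ℕ), (∀ μ : QBar, μ ^ p = 1 → σ μ = μ ^ a) →
      (W.rb σ).det = (a : ResidueField O))
    (hFS : FlatStrictBound (ResidueField O) p) (hH : P.Holds p Q ru hc) :
    LocalBound W.rb V p 0 (1 - P.atP.weight) := by
  have h2 : (2 : ResidueField O) ≠ 0 := hr.two
  have hat := hH.atP
  have hflat : (toRep ru hc).IsFlatAt p → ∀ b ∈ V,
    b ≠ 0 → ∃ (ρ : GaloisRepAdic (DualNumber (ResidueField O)))
      (B : Basis (Fin 2) (DualNumber (ResidueField O)) ρ.V), ρ.IsFlatAt p ∧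
        ∀ σ, matOf ρ B σ = (1 + epsM (b σ)) * inlM (W.rb σ) := fun hf b hb hb0 => by
    obtain ⟨δ, -, rfl⟩ := hV b hb
    exact Assembly.exists_flat_dual p hl hc hf fun h0 => hb0 (by rw [h0, map_zero])
  have hstrict : (toRep ru hc).IsStrictOrdinaryAt p → ∀ b ∈ V, b ≠ 0 →
      ∃ (ρ : GaloisRepAdic (DualNumber (ResidueField O)))
        (B : Basis (Fin 2) (DualNumber (ResidueField O)) ρ.V),
        ρ.IsStrictOrdinaryAt p ∧ ρ.DetIsCyclotomic p ∧
          ∀ σ, matOf ρ B σ = (1 + epsM (b σ)) * inlM (W.rb σ) := fun hf b hb _ => by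
    obtain ⟨δ, -, rfl⟩ := hV b hb
    exact exists_strict_dual p hl hc hf hH.det δ
  cases hcp : P.atP <;> rw [hcp] at hat
  · exact finrank_le_flat hp2 hfin hcyc hr.split V hcoc hlev htr (hflat hat)
  · exact finrank_le_ordinary hp2 h2 hfin hcyc V hcoc hlev (hstrict hat)
  · exact hFS W.rb hfin hcyc hr.split V inferInstance hcoc hlev htr (hflat hat.1) (hstrict hat.2)

omit [Finite (ResidueField O)] in
/-- At a prime of a pattern the tangent classes have the bound of the condition there. -/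
private theorem localBound_cond (h2 : (2 : ResidueField O) ≠ 0)
    (hfin : GaloisFactorsThroughFiniteLevel W.rb)
    (hcyc : ∀ (σ : Gal) (a : ℕ), (∀ μ : QBar, μ ^ p = 1 → σ μ = μ ^ a) →
      (W.rb σ).det = (a : ResidueField O))
    (hP : P.Compat p W.rb) (hH : P.Holds p Q ru hc) (hx : P.KillsScalar W h ru x)
    {q : ℕ} [Fact q.Prime] (hqP : q ∈ P.S) (hqp : q ≠ p) :
    LocalBound W.rb V q (P.cond q).weight 0 := by
  have hzero : ∀ σ : Gal, ru σ = 1 → ∀ b ∈ V, b σ = 0 := fun σ hσ b hb => by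
    obtain ⟨δ, -, rfl⟩ := hV b hb
    exact Assembly.tangentCls_eq_zero_of_eq_one δ hσ
  have hC := hP.cond q hqP
  have hH' := hH.cond q hqP
  have hA := CFT.Local.padicPlace_liesOverPrime q
  cases hcq : P.cond q with
  | unramified =>
    rw [hcq] at hC hH'
    exact finrank_le_unramified hfin V hcoc hlev htr hC fun b hb τ hτ => hzero τ (hH' τ hτ) b hb
  | unipotent =>
    rw [hcq] at hC hH'
    have h2' : ∀ τ ∈ (padicPlace q).inertiaSubgroupIn ℚ, (ru τ).trace = ((2 : ℤ) : R) :=
      fun τ hτ => by rw [hH' τ hτ]; norm_num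
    refine finrank_le_unipotent p h2 hqp hfin V hcoc hlev htr (fun τ hτ => ⟨?_, ?_⟩) hC
      fun b hb τ hτ => ?_
    · rw [trace_rb_of_intCast hl (h2' τ hτ)]; norm_num
    · rw [hcyc τ 1 fun μ hμ => ?_, Nat.cast_one]
      rw [pow_one]
      exact inertia_root hA Fact.out hτ hμ
        fun hd => hqp ((Nat.prime_dvd_prime_iff_eq Fact.out Fact.out).mp hd)
    · obtain ⟨δ, -, rfl⟩ := hV b hb
      exact trace_tangentCls_mul_rb_of_intCast δ (h2' τ hτ)
  | special ε =>
    rw [hcq] at hC hH'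
    obtain ⟨-, hr1, F, hF, hns⟩ := hC
    obtain ⟨hT, hline⟩ := hH' F hF
    refine finrank_le_special p hqp hfin V hcoc hlev htr hr1 hF hns (fun b hb => ?_)
      (residue O ((ε : O) * (q : O))) fun b hb τ hτ => ?_
    · obtain ⟨δ, -, rfl⟩ := hV b hb
      exact trace_tangentCls_mul_rb_of_intCast δ (n := ε * ((q : ℤ) + 1))
        (by rw [hT]; push_cast; ring)
    · obtain ⟨δ, -, rfl⟩ := hV b hb
      exact sub_smul_mul_tangentCls hl δ _ (hr1 τ hτ) (by simpa using hline τ hτ)
  | both ε =>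
    rw [hcq] at hC hH'
    obtain ⟨-, hr1, F, hF, hns⟩ := hC
    obtain ⟨hU, hT⟩ := hH'
    refine finrank_le_both hfin V hcoc hlev htr hr1 hF hns (fun b hb => ?_)
      fun b hb τ hτ => hzero τ (hU τ hτ) b hb
    obtain ⟨δ, -, rfl⟩ := hV b hb
    exact trace_tangentCls_mul_rb_of_intCast δ (n := ε * ((q : ℤ) + 1))
      (by rw [hT F hF]; push_cast; ring)
  | scalar =>
    rw [hcq] at hC
    obtain ⟨hr1, F, hF, c, hc'⟩ := hC
    refine localBound_scalar hfin hr1 hF hc' V fun b hb g hg => ?_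
    obtain ⟨δ, hδ, rfl⟩ := hV b hb
    exact hx δ hδ q hqP hcq g hg

end LocalBounds

/-- **The tangent bound**, given the bound for flat and strictly ordinary classes. -/
theorem hasPatternBound_of [Finite (ResidueField O)] {p : ℕ} [Fact p.Prime]
    [CharP (ResidueField O) p] (hp2 : p ≠ 2) (hr : CFT.TWPrimes.TWHyp W.rb)
    (hfin : GaloisFactorsThroughFiniteLevel W.rb)
    (hcyc : ∀ (σ : Gal) (a : ℕ), (∀ μ : QBar, μ ^ p = 1 → σ μ = μ ^ a) →
      (W.rb σ).det = (a : ResidueField O))
    (hFS : FlatStrictBound (ResidueField O) p) : HasPatternBound W p := by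
  classical
  intro S hS hpS hur
  obtain ⟨r₀, hr₀⟩ := CFT.TWPrimes.hasSelmerBound hp2 hr hfin hcyc S hpS hS hur
  refine ⟨r₀, fun r hrr n => ?_⟩
  obtain ⟨qv, hinj, hqv, hfrob, hbound⟩ := hr₀ r hrr n
  refine ⟨qv, hinj, hqv, hfrob, fun P hPS hP R _ _ _ _ h ru hc hl hn hgen hH C x hx => ?_⟩
  -- The killed derivations embed as their tangent classes `V`: cocycles of trace zero, none a
  -- nonzero coboundary. The Selmer bound applies to `V`, given the bound at each local condition.
  set f : Assembly.killedDer h x →ₗ[ResidueField O] (Gal → M2 (ResidueField O)) :=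
    (tangentCls W h ru).comp (Assembly.killedDer h x).subtype
  have hfinj : Function.Injective f := fun δ δ' hδ => sub_eq_zero.mp <| Subtype.ext
    (Assembly.eq_zero_of_tangentCls_eq_cobdLin hl hn hgen (δ - δ').1 (X := 0)
      ((show tangentCls W h ru (δ - δ').1 = 0 from
        (LinearMap.map_sub f δ δ').trans (sub_eq_zero.mpr hδ)).trans (map_zero _).symm))
  set V := LinearMap.range f
  rw [← LinearMap.finrank_range_of_inj hfinj]
  have hV : ∀ b ∈ V, ∃ δ ∈ Assembly.killedDer h x, b = tangentCls W h ru δ := by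
    rintro _ ⟨δ, rfl⟩
    exact ⟨δ.1, δ.2, rfl⟩
  have hcoc : ∀ b ∈ V, IsAdCocycle W.rb b := fun b hb => by
    obtain ⟨δ, -, rfl⟩ := hV b hb
    exact tangentCls_mul hl δ
  have hlev : ∀ b ∈ V, IsFiniteLevel b := fun b hb => by
    obtain ⟨δ, -, rfl⟩ := hV b hb
    exact tangentCls_finiteLevel hc δ
  have htr : ∀ b ∈ V, ∀ σ, (b σ).trace = 0 := fun b hb => by
    obtain ⟨δ, -, rfl⟩ := hV b hb
    exact Assembly.trace_tangentCls p hl hc hH.det δ
  have hcob : ∀ b ∈ V, ∀ X, b = cobdLin W.rb X → b = 0 := fun b hb X hX => by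
    obtain ⟨δ, -, rfl⟩ := hV b hb
    rw [Assembly.eq_zero_of_tangentCls_eq_cobdLin hl hn hgen δ hX, map_zero]
  have hzero : ∀ σ : Gal, ru σ = 1 → ∀ b ∈ V, b σ = 0 := fun σ hσ b hb => by
    obtain ⟨δ, -, rfl⟩ := hV b hb
    exact Assembly.tangentCls_eq_zero_of_eq_one δ hσ
  have hpP : p ∉ P.S := fun hmem => (hP.prime p hmem).2 rfl
  have hsum := hbound V inferInstance hcoc hlev htr hcob
    (fun q _ hqS hqv' b hb τ hτ => hzero τ (hH.outside q (fun hmem => hqS (hPS hmem))
      (fun hqp => hqS (hqp ▸ hpS)) (fun ⟨i, hi⟩ => hqv' i hi) τ hτ) b hb)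
    (fun q => if q ∈ P.S then (P.cond q).weight else 0)
    (fun q => if q = p then 1 - P.atP.weight else 0) ?_
  · rw [Finset.sum_ite_mem, Finset.inter_eq_right.mpr hPS, Finset.sum_ite_eq', if_pos hpS] at hsum
    have hw : P.atP.weight ≤ 1 := by cases P.atP <;> simp [CondAtP.weight]
    show finrank (ResidueField O) V + (∑ q ∈ P.S, (P.cond q).weight + P.atP.weight) ≤ r
    omega
  -- Each local image has dimension at most the weight of the condition there.
  intro q _ hqS
  rcases eq_or_ne q p with rfl | hqp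
  · rw [if_neg hpP, if_pos rfl]
    exact localBound_atP hl hc V hV hcoc hlev htr hp2 hr hfin hcyc hFS hH
  rw [if_neg hqp]
  by_cases hqP : q ∈ P.S
  · rw [if_pos hqP]
    exact localBound_cond hl hc V hV hcoc hlev htr hr.two hfin hcyc hP hH hx hqP hqp
  · rw [if_neg hqP]
    exact finrank_le_unramified hfin V hcoc hlev htr (hP.outside q hqP hqp) fun b hb τ hτ =>
      hzero τ (hH.outside q hqP hqp (fun ⟨i, hi⟩ => (hqv i).2.1 (hi ▸ hqS)) τ hτ) b hb

end Fermat.Agent.RT.Pattern
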